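/-
S25 (Jacobian), package A3 piece INST (helper1451): the base-changed chart of a curve presentation
over an algebraically closed field is a curve chart in the sense of `Deg1451.IsCurveChart`.

Integration of (all verbatim): `H6408/Chart.lean` (helper6408: `chart 𝒞 R`),
`H6584/CurveDedekind.lean` (helper6584: `κ ⊗ A_i` domain, Dedekind, finite type),
`H1430/Aut.lean` (helper1430: (H0) `H⁰(O_R) = R`), `H1390/*` (helper1390: (F) `H¹` finite).
No sorry.
-/
import Fermat.Agent.S25.CONN.Count.Deg1451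
import Fermat.Agent.S25.CONN.Count.H6408.Chart
import Fermat.Agent.S25.CONN.Count.H6584.CurveDedekind
import Fermat.Agent.S25.CONN.Count.H1430.Aut
import Fermat.Agent.S25.CONN.Count.H1390.ChartRetract

set_option autoImplicit false

universe u

namespace Fermat.Agent.S25.CONN.Count.H1451

open scoped TensorProduct

variable {k : Type u} [Field k] [IsAlgClosed k] (𝒞 : CurveData k)
  (κ : Type u) [Field κ] [Algebra k κ] [IsAlgClosed κ]

/-- The chart `κ ⊗ A₁`, `κ ⊗ A₂`, `κ ⊗ A₁₂` of a curve presentation over an algebraically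
closed field `κ ⊇ k` is a curve chart. -/
theorem isCurveChart_chart : IsCurveChart (H6408.chart 𝒞 κ) where
  dom₁ := H6584.curve_baseChange_isDomain₁ 𝒞 κ
  dom₂ := H6584.curve_baseChange_isDomain₂ 𝒞 κ
  inj₁ := H6408.chartR₁_injective 𝒞 κ
  inj₂ := H6408.chartR₂_injective 𝒞 κ
  dim₁ := by
    have h := H6584.curve_baseChange_isDedekindDomain₁ 𝒞 κ
    exact h.toDimensionLEOne
  dim₂ := by
    have h := H6584.curve_baseChange_isDedekindDomain₂ 𝒞 κ
    exact h.toDimensionLEOne
  ft₁ := H6584.curve_baseChange_finiteType₁ 𝒞 κ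
  ft₂ := H6584.curve_baseChange_finiteType₂ 𝒞 κ
  glob := fun a₁ a₂ h => by
    obtain ⟨c, h1, _⟩ := H1430.hglob_tensor 𝒞 κ a₁ a₂ h
    exact ⟨c, h1⟩
  finH1 := by
    have : Module.Finite (H6408.chart 𝒞 κ).B₁ (GluedModule.unit (H6408.chart 𝒞 κ)).N₁ :=
      inferInstanceAs (Module.Finite (H6408.chart 𝒞 κ).B₁ (H6408.chart 𝒞 κ).B₁)
    have : Module.Projective (H6408.chart 𝒞 κ).B₁ (GluedModule.unit (H6408.chart 𝒞 κ)).N₁ :=
      inferInstanceAs (Module.Projective (H6408.chart 𝒞 κ).B₁ (H6408.chart 𝒞 κ).B₁)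
    exact H1390.H1_finite (GluedModule.unit (H6408.chart 𝒞 κ)) (H1390.hasPolyRetract₁ 𝒞 κ)

/-- Every line bundle on the curve over an algebraically closed field has finite-dimensional
cohomology. -/
theorem finCoh_chart {N : GluedModule (H6408.chart 𝒞 κ)} (hN : N.IsLineBundle) : FinCoh N :=
  (isCurveChart_chart 𝒞 κ).finCoh_of_isLineBundle hN

end Fermat.Agent.S25.CONN.Count.H1451
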