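/-
S25 package CONN, leaf (Count) -- core (helper2485).

Euler characteristic of point-product families over a field: each point lowers `χ` by one.
Everything here is for an abstract two-chart over a field; the curve is plugged in `Count.lean`.
Uses the harvested chain of helper1451 (copied under `CONN/Count/`, namespaces renamed).
-/
import Fermat.Agent.S25.CONN.Points
import Fermat.Agent.S25.CONN.Count.Inst1451

set_option autoImplicit false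

universe u

namespace Fermat.Agent.S25.CONN.Count

open Fermat.Agent.S25 GluedModule H1451 Function



section Alg

variable {κ : Type*} [Field κ] {B : Type*} [CommRing B] [Algebra κ B]

/-- The inclusion `P * J ≤ J` of ideals, as a linear map. -/
abbrev mulIncl (P J : Ideal B) : ↥(P * J) →ₗ[B] ↥J :=
  Submodule.inclusion (Ideal.mul_le_right : P * J ≤ J)

theorem range_mulIncl (P J : Ideal B) :
    LinearMap.range (mulIncl P J) = P • (⊤ : Submodule B J) := by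
  apply Submodule.map_injective_of_injective (f := J.subtype) (Submodule.subtype_injective _)
  rw [Submodule.map_smul'', Submodule.map_subtype_top, mulIncl, Submodule.range_inclusion,
    Submodule.map_comap_subtype]
  exact inf_eq_right.mpr Ideal.mul_le_right

theorem finite_quot_mulIncl (P J : Ideal B) [Module.Invertible B J] [Module.Finite κ (B ⧸ P)] :
    Module.Finite κ (↥J ⧸ LinearMap.range (mulIncl P J)) := by
  rw [range_mulIncl]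
  exact finite_quot_smul_top (κ := κ) (N := ↥J) P

theorem finrank_quot_mulIncl (P J : Ideal B) [Module.Invertible B J] [Module.Finite κ (B ⧸ P)] :
    Module.finrank κ (↥J ⧸ LinearMap.range (mulIncl P J)) = Module.finrank κ (B ⧸ P) := by
  rw [range_mulIncl]
  exact finrank_quot_smul_top (κ := κ) (N := ↥J) P

theorem smul_quot_mulIncl_eq_zero (P J : Ideal B) {a : B} (ha : a ∈ P)
    (t : ↥J ⧸ LinearMap.range (mulIncl P J)) : a • t = 0 := by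
  obtain ⟨b, rfl⟩ := Submodule.Quotient.mk_surjective _ t
  rw [← Submodule.Quotient.mk_smul, Submodule.Quotient.mk_eq_zero]
  exact ⟨⟨a * b.1, Ideal.mul_mem_mul ha b.2⟩, Subtype.ext (by simp)⟩

end Alg




section Torsion

variable {κ : Type u} [Field κ] {𝔹 : TwoChart κ}

/-- If `1 - c g` kills `T.N₂` for a scalar `c`, then `ι₂` is injective. -/
theorem ι₂_injective_of_smul (T : GluedModule 𝔹) (c : κ)
    (hc : ∀ t : T.N₂, (1 - algebraMap κ 𝔹.B₂ c * 𝔹.g) • t = 0) : Injective T.ι₂ := by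
  rw [injective_iff_map_eq_zero]
  intro t ht
  obtain ⟨m, hm⟩ := T.ker₂ t ht
  have h1 : ∀ s : T.N₂, (algebraMap κ 𝔹.B₂ c * 𝔹.g) • s = s := by
    intro s
    have := hc s
    rw [sub_smul, one_smul, sub_eq_zero] at this
    exact this.symm
  have h2 : ∀ j : ℕ, (algebraMap κ 𝔹.B₂ c * 𝔹.g) ^ j • t = t := by
    intro j
    induction j with
    | zero => simp
    | succ j ih => rw [pow_succ, mul_smul, h1, ih]
  rw [← h2 m, mul_pow, mul_smul, hm, smul_zero]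

/-- If `1 - c f` kills `T.N₁` for a scalar `c`, then `ι₁` is injective. -/
theorem ι₁_injective_of_smul (T : GluedModule 𝔹) (c : κ)
    (hc : ∀ t : T.N₁, (1 - algebraMap κ 𝔹.B₁ c * 𝔹.f) • t = 0) : Injective T.ι₁ := by
  rw [injective_iff_map_eq_zero]
  intro t ht
  obtain ⟨m, hm⟩ := T.ker₁ t ht
  have h1 : ∀ s : T.N₁, (algebraMap κ 𝔹.B₁ c * 𝔹.f) • s = s := by
    intro s
    have := hc s
    rw [sub_smul, one_smul, sub_eq_zero] at this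
    exact this.symm
  have h2 : ∀ j : ℕ, (algebraMap κ 𝔹.B₁ c * 𝔹.f) ^ j • t = t := by
    intro j
    induction j with
    | zero => simp
    | succ j ih => rw [pow_succ, mul_smul, h1, ih]
  rw [← h2 m, mul_pow, mul_smul, hm, smul_zero]

/-- A torsion glued module on which `g` acts invertibly up to a scalar:
`dim H⁰ = dim N₁`. -/
theorem gh0_eq_finrank_N₁ (T : GluedModule 𝔹) [Module.Finite κ T.N₁] [Module.Finite κ T.N₂]
    (c : κ) (hc : ∀ t : T.N₂, (1 - algebraMap κ 𝔹.B₂ c * 𝔹.g) • t = 0) :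
    gh0 T = Module.finrank κ T.N₁ := by
  have hbij : Bijective T.ι₂ := ⟨ι₂_injective_of_smul T c hc, ι₂_surjective_of_finite T⟩
  have h2 : Module.finrank κ T.N₂ = Module.finrank κ T.N₁₂ :=
    (LinearEquiv.ofBijective T.ι₂ hbij).finrank_eq
  have h := gh0_of_finite T
  rw [h2] at h
  have : (gh0 T : ℤ) = (Module.finrank κ T.N₁ : ℤ) := by linarith
  exact_mod_cast this

/-- A torsion glued module on which `f` acts invertibly up to a scalar: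
`dim H⁰ = dim N₂`. -/
theorem gh0_eq_finrank_N₂ (T : GluedModule 𝔹) [Module.Finite κ T.N₁] [Module.Finite κ T.N₂]
    (c : κ) (hc : ∀ t : T.N₁, (1 - algebraMap κ 𝔹.B₁ c * 𝔹.f) • t = 0) :
    gh0 T = Module.finrank κ T.N₂ := by
  have hbij : Bijective T.ι₁ := ⟨ι₁_injective_of_smul T c hc, ι₁_surjective_of_finite T⟩
  have h1 : Module.finrank κ T.N₁ = Module.finrank κ T.N₁₂ :=
    (LinearEquiv.ofBijective T.ι₁ hbij).finrank_eq
  have h := gh0_of_finite T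
  rw [h1] at h
  have : (gh0 T : ℤ) = (Module.finrank κ T.N₂ : ℤ) := by linarith
  exact_mod_cast this

end Torsion




section Point

variable {κ : Type u} [Field κ] {𝔹 : TwoChart κ}

theorem ev_surjective {B : Type*} [CommRing B] [Algebra κ B] (ev : B →ₐ[κ] κ) :
    Surjective ev := fun c => ⟨algebraMap κ B c, by simp⟩

theorem finite_quot_ker_ev {B : Type*} [CommRing B] [Algebra κ B] (ev : B →ₐ[κ] κ) :
    Module.Finite κ (B ⧸ RingHom.ker ev) :=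
  Module.Finite.equiv
    (Ideal.quotientKerAlgEquivOfSurjective (ev_surjective ev)).symm.toLinearEquiv

theorem finrank_quot_ker_ev {B : Type*} [CommRing B] [Algebra κ B] (ev : B →ₐ[κ] κ) :
    Module.finrank κ (B ⧸ RingHom.ker ev) = 1 := by
  rw [(Ideal.quotientKerAlgEquivOfSurjective (ev_surjective ev)).toLinearEquiv.finrank_eq]
  exact Module.finrank_self κ

theorem sub_algebraMap_mem_ker {B : Type*} [CommRing B] [Algebra κ B] (ev : B →ₐ[κ] κ) (a : B) :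
    a - algebraMap κ B (ev a) ∈ RingHom.ker ev := by
  rw [RingHom.mem_ker, map_sub, sub_eq_zero]
  simp

/-- For a point `ev` of chart 1 with `c = ev f`: `1 - c g` lies in the chart-2 ideal. -/
theorem one_sub_mem_ofI₁ (ev : 𝔹.B₁ →ₐ[κ] κ) :
    1 - algebraMap κ 𝔹.B₂ (ev 𝔹.f) * 𝔹.g ∈ (IdealDatum.ofI₁ (RingHom.ker ev)).I₂ := by
  rw [IdealDatum.ofI₁_I₂, Ideal.mem_comap]
  have h1 : 𝔹.r₁ (𝔹.f - algebraMap κ 𝔹.B₁ (ev 𝔹.f)) ∈
      (RingHom.ker ev).map 𝔹.r₁ :=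
    Ideal.mem_map_of_mem _ (sub_algebraMap_mem_ker ev 𝔹.f)
  have h2 : 𝔹.r₂ (1 - algebraMap κ 𝔹.B₂ (ev 𝔹.f) * 𝔹.g) =
      𝔹.r₂ 𝔹.g * 𝔹.r₁ (𝔹.f - algebraMap κ 𝔹.B₁ (ev 𝔹.f)) := by
    rw [map_sub, map_sub, map_one, map_mul, AlgHom.commutes, AlgHom.commutes, mul_sub, 𝔹.gf,
      mul_comm]
  rw [h2]
  exact Ideal.mul_mem_left _ _ h1

end Point




section Point

variable {κ : Type u} [Field κ] {𝔹 : TwoChart κ}

/-- Modulo the extension of a point ideal of chart 1, `r₂ g` is the scalar `(ev f)⁻¹`. -/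
theorem g_sub_mem_map₁ (ev : 𝔹.B₁ →ₐ[κ] κ) :
    𝔹.r₂ 𝔹.g - algebraMap κ 𝔹.B₁₂ (ev 𝔹.f)⁻¹ ∈ (RingHom.ker ev).map 𝔹.r₁ := by
  have h1 : 𝔹.r₁ (𝔹.f - algebraMap κ 𝔹.B₁ (ev 𝔹.f)) ∈
      (RingHom.ker ev).map 𝔹.r₁ :=
    Ideal.mem_map_of_mem _ (sub_algebraMap_mem_ker ev 𝔹.f)
  by_cases hc : ev 𝔹.f = 0
  · rw [hc, map_zero, sub_zero] at h1
    rw [Ideal.eq_top_of_isUnit_mem _ h1 𝔹.u.isUnit]
    trivial
  · have h2 : 𝔹.r₂ 𝔹.g - algebraMap κ 𝔹.B₁₂ (ev 𝔹.f)⁻¹ =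
        (algebraMap κ 𝔹.B₁₂ (-(ev 𝔹.f)⁻¹) * 𝔹.r₂ 𝔹.g) *
          𝔹.r₁ (𝔹.f - algebraMap κ 𝔹.B₁ (ev 𝔹.f)) := by
      rw [map_sub, AlgHom.commutes, mul_sub, mul_assoc, 𝔹.gf, mul_one, map_neg, neg_mul,
        neg_mul, mul_comm (algebraMap κ 𝔹.B₁₂ (ev 𝔹.f)⁻¹) (𝔹.r₂ 𝔹.g), mul_assoc, ← map_mul,
        inv_mul_cancel₀ hc, map_one, mul_one]
      ring
    rw [h2]
    exact Ideal.mul_mem_left _ _ h1

/-- Every element of chart 2 is a scalar modulo the chart-2 ideal of a point of chart 1. -/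
theorem exists_sub_mem_ofI₁ (ev : 𝔹.B₁ →ₐ[κ] κ) (b : 𝔹.B₂) :
    ∃ α : κ, b - algebraMap κ 𝔹.B₂ α ∈
      (IdealDatum.ofI₁ (RingHom.ker ev)).I₂ := by
  obtain ⟨a, m, ham⟩ := 𝔹.surj₁ (𝔹.r₂ b)
  refine ⟨ev a * ((ev 𝔹.f)⁻¹) ^ m, ?_⟩
  rw [IdealDatum.ofI₁_I₂, Ideal.mem_comap]
  have h1 : 𝔹.r₁ (a - algebraMap κ 𝔹.B₁ (ev a)) ∈ (RingHom.ker ev).map 𝔹.r₁ :=
    Ideal.mem_map_of_mem _ (sub_algebraMap_mem_ker ev a)
  have h2 : 𝔹.r₂ 𝔹.g ^ m - algebraMap κ 𝔹.B₁₂ (ev 𝔹.f)⁻¹ ^ m ∈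
      (RingHom.ker ev).map 𝔹.r₁ :=
    Ideal.mem_of_dvd _ (sub_dvd_pow_sub_pow _ _ m) (g_sub_mem_map₁ ev)
  have h3 : 𝔹.r₂ (b - algebraMap κ 𝔹.B₂ (ev a * ((ev 𝔹.f)⁻¹) ^ m)) =
      𝔹.r₁ (a - algebraMap κ 𝔹.B₁ (ev a)) * 𝔹.r₂ 𝔹.g ^ m +
        algebraMap κ 𝔹.B₁₂ (ev a) * (𝔹.r₂ 𝔹.g ^ m - algebraMap κ 𝔹.B₁₂ (ev 𝔹.f)⁻¹ ^ m) := by
    rw [map_sub, ham, AlgHom.commutes, map_sub, AlgHom.commutes, map_mul, map_pow]
    ring
  rw [h3]
  exact Ideal.add_mem _ (Ideal.mul_mem_right _ _ h1) (Ideal.mul_mem_left _ _ h2)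

theorem finite_quot_ofI₁_I₂ (ev : 𝔹.B₁ →ₐ[κ] κ) :
    Module.Finite κ (𝔹.B₂ ⧸ (IdealDatum.ofI₁ (RingHom.ker ev)).I₂) := by
  refine Module.Finite.of_surjective
    (Algebra.linearMap κ (𝔹.B₂ ⧸ (IdealDatum.ofI₁ (RingHom.ker ev)).I₂)) ?_
  intro y
  obtain ⟨b, rfl⟩ := Ideal.Quotient.mk_surjective y
  obtain ⟨α, hα⟩ := exists_sub_mem_ofI₁ ev b
  refine ⟨α, ?_⟩
  rw [Algebra.linearMap_apply]
  exact (Ideal.Quotient.eq.mpr hα).symm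

end Point




section Incl

variable {R : Type u} [CommRing R] {𝔹 : TwoChart R}

/-- The inclusion `(P J)⟨n⟩ ⊆ J⟨n⟩` of twisted ideal sheaves. -/
def inclHom (P J : IdealDatum 𝔹) (n : ℤ) :
    GluedModule.Hom ((P * J).toGlued.twist n) (J.toGlued.twist n) where
  φ₁ := mulIncl P.I₁ J.I₁
  φ₂ := mulIncl P.I₂ J.I₂
  φ₁₂ := Submodule.inclusion (Ideal.map_mono (Ideal.mul_le_right : P.I₁ * J.I₁ ≤ J.I₁))
  comm₁ _ := rfl
  comm₂ _ := Subtype.ext rfl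

end Incl


section Step

variable {κ : Type u} [Field κ] {𝔹 : TwoChart κ}

/-- Multiplying an invertible ideal datum by a point of chart 1 lowers `χ` by one. -/
theorem step_pt₁ (ev : 𝔹.B₁ →ₐ[κ] κ) (J : IdealDatum 𝔹) (hJ : J.toGlued.IsLineBundle) (n : ℤ)
    (hf : FinCoh (J.toGlued.twist n)) :
    FinCoh ((IdealDatum.ofI₁ (RingHom.ker ev) * J).toGlued.twist n) ∧
    gchi ((IdealDatum.ofI₁ (RingHom.ker ev) * J).toGlued.twist n) =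
      gchi (J.toGlued.twist n) - 1 := by
  set P := IdealDatum.ofI₁ (RingHom.ker ev) with hP
  let φ := inclHom P J n
  have hinj₁ : Injective φ.φ₁ :=
    Submodule.inclusion_injective (Ideal.mul_le_right : P.I₁ * J.I₁ ≤ J.I₁)
  have hinj₂ : Injective φ.φ₂ :=
    Submodule.inclusion_injective (Ideal.mul_le_right : P.I₂ * J.I₂ ≤ J.I₂)
  have : Module.Invertible 𝔹.B₁ J.I₁ := hJ.inv₁
  have : Module.Invertible 𝔹.B₂ J.I₂ := hJ.inv₂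
  have : Module.Finite κ (𝔹.B₁ ⧸ P.I₁) := finite_quot_ker_ev ev
  have : Module.Finite κ (𝔹.B₂ ⧸ P.I₂) := finite_quot_ofI₁_I₂ ev
  have fin₁ : Module.Finite κ ((J.toGlued.twist n).N₁ ⧸ LinearMap.range φ.φ₁) :=
    finite_quot_mulIncl P.I₁ J.I₁
  have fin₂ : Module.Finite κ ((J.toGlued.twist n).N₂ ⧸ LinearMap.range φ.φ₂) :=
    finite_quot_mulIncl P.I₂ J.I₂
  have hf' : FinCoh ((P * J).toGlued.twist n) :=
    finCoh_of_injective_of_finite' φ hinj₁ hinj₂ hf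
  have hchi := gchi_of_injective_of_finite φ hinj₁ hinj₂ hf'
  have hT : gh0 (cokerG φ) = 1 := by
    rw [gh0_eq_finrank_N₁ (cokerG φ) (ev 𝔹.f)
      (fun t => smul_quot_mulIncl_eq_zero P.I₂ J.I₂ (one_sub_mem_ofI₁ ev) t)]
    exact (finrank_quot_mulIncl P.I₁ J.I₁).trans (finrank_quot_ker_ev ev)
  refine ⟨hf', ?_⟩
  rw [hchi, hT]
  ring

end Step

section Point₂

variable {κ : Type u} [Field κ] {𝔹 : TwoChart κ}

/-- For a point `ev` of chart 2 with `c = ev g`: `1 - c f` lies in the chart-1 ideal. -/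
theorem one_sub_mem_ofI₂ (ev : 𝔹.B₂ →ₐ[κ] κ) :
    1 - algebraMap κ 𝔹.B₁ (ev 𝔹.g) * 𝔹.f ∈ (IdealDatum.ofI₂ (RingHom.ker ev)).I₁ := by
  rw [IdealDatum.ofI₂_I₁, Ideal.mem_comap]
  have h1 : 𝔹.r₂ (𝔹.g - algebraMap κ 𝔹.B₂ (ev 𝔹.g)) ∈
      (RingHom.ker ev).map 𝔹.r₂ :=
    Ideal.mem_map_of_mem _ (sub_algebraMap_mem_ker ev 𝔹.g)
  have h2 : 𝔹.r₁ (1 - algebraMap κ 𝔹.B₁ (ev 𝔹.g) * 𝔹.f) =
      𝔹.r₁ 𝔹.f * 𝔹.r₂ (𝔹.g - algebraMap κ 𝔹.B₂ (ev 𝔹.g)) := by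
    rw [map_sub, map_sub, map_one, map_mul, AlgHom.commutes, AlgHom.commutes, mul_sub, 𝔹.fg,
      mul_comm]
  rw [h2]
  exact Ideal.mul_mem_left _ _ h1

/-- Modulo the extension of a point ideal of chart 2, `r₁ f` is the scalar `(ev g)⁻¹`. -/
theorem f_sub_mem_map₂ (ev : 𝔹.B₂ →ₐ[κ] κ) :
    𝔹.r₁ 𝔹.f - algebraMap κ 𝔹.B₁₂ (ev 𝔹.g)⁻¹ ∈ (RingHom.ker ev).map 𝔹.r₂ := by
  have h1 : 𝔹.r₂ (𝔹.g - algebraMap κ 𝔹.B₂ (ev 𝔹.g)) ∈
      (RingHom.ker ev).map 𝔹.r₂ :=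
    Ideal.mem_map_of_mem _ (sub_algebraMap_mem_ker ev 𝔹.g)
  by_cases hc : ev 𝔹.g = 0
  · rw [hc, map_zero, sub_zero] at h1
    rw [Ideal.eq_top_of_isUnit_mem _ h1 (𝔹.u⁻¹).isUnit]
    trivial
  · have h2 : 𝔹.r₁ 𝔹.f - algebraMap κ 𝔹.B₁₂ (ev 𝔹.g)⁻¹ =
        (algebraMap κ 𝔹.B₁₂ (-(ev 𝔹.g)⁻¹) * 𝔹.r₁ 𝔹.f) *
          𝔹.r₂ (𝔹.g - algebraMap κ 𝔹.B₂ (ev 𝔹.g)) := by
      rw [map_sub, AlgHom.commutes, mul_sub, mul_assoc, 𝔹.fg, mul_one, map_neg, neg_mul,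
        neg_mul, mul_comm (algebraMap κ 𝔹.B₁₂ (ev 𝔹.g)⁻¹) (𝔹.r₁ 𝔹.f), mul_assoc, ← map_mul,
        inv_mul_cancel₀ hc, map_one, mul_one]
      ring
    rw [h2]
    exact Ideal.mul_mem_left _ _ h1

/-- Every element of chart 1 is a scalar modulo the chart-1 ideal of a point of chart 2. -/
theorem exists_sub_mem_ofI₂ (ev : 𝔹.B₂ →ₐ[κ] κ) (b : 𝔹.B₁) :
    ∃ α : κ, b - algebraMap κ 𝔹.B₁ α ∈
      (IdealDatum.ofI₂ (RingHom.ker ev)).I₁ := by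
  obtain ⟨a, m, ham⟩ := 𝔹.surj₂ (𝔹.r₁ b)
  refine ⟨ev a * ((ev 𝔹.g)⁻¹) ^ m, ?_⟩
  rw [IdealDatum.ofI₂_I₁, Ideal.mem_comap]
  have h1 : 𝔹.r₂ (a - algebraMap κ 𝔹.B₂ (ev a)) ∈ (RingHom.ker ev).map 𝔹.r₂ :=
    Ideal.mem_map_of_mem _ (sub_algebraMap_mem_ker ev a)
  have h2 : 𝔹.r₁ 𝔹.f ^ m - algebraMap κ 𝔹.B₁₂ (ev 𝔹.g)⁻¹ ^ m ∈
      (RingHom.ker ev).map 𝔹.r₂ :=
    Ideal.mem_of_dvd _ (sub_dvd_pow_sub_pow _ _ m) (f_sub_mem_map₂ ev)
  have h3 : 𝔹.r₁ (b - algebraMap κ 𝔹.B₁ (ev a * ((ev 𝔹.g)⁻¹) ^ m)) =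
      𝔹.r₂ (a - algebraMap κ 𝔹.B₂ (ev a)) * 𝔹.r₁ 𝔹.f ^ m +
        algebraMap κ 𝔹.B₁₂ (ev a) * (𝔹.r₁ 𝔹.f ^ m - algebraMap κ 𝔹.B₁₂ (ev 𝔹.g)⁻¹ ^ m) := by
    rw [map_sub, ham, AlgHom.commutes, map_sub, AlgHom.commutes, map_mul, map_pow]
    ring
  rw [h3]
  exact Ideal.add_mem _ (Ideal.mul_mem_right _ _ h1) (Ideal.mul_mem_left _ _ h2)

theorem finite_quot_ofI₂_I₁ (ev : 𝔹.B₂ →ₐ[κ] κ) :
    Module.Finite κ (𝔹.B₁ ⧸ (IdealDatum.ofI₂ (RingHom.ker ev)).I₁) := by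
  refine Module.Finite.of_surjective
    (Algebra.linearMap κ (𝔹.B₁ ⧸ (IdealDatum.ofI₂ (RingHom.ker ev)).I₁)) ?_
  intro y
  obtain ⟨b, rfl⟩ := Ideal.Quotient.mk_surjective y
  obtain ⟨α, hα⟩ := exists_sub_mem_ofI₂ ev b
  refine ⟨α, ?_⟩
  rw [Algebra.linearMap_apply]
  exact (Ideal.Quotient.eq.mpr hα).symm

end Point₂

section Step₂

variable {κ : Type u} [Field κ] {𝔹 : TwoChart κ}

/-- Multiplying an invertible ideal datum by a point of chart 2 lowers `χ` by one. -/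
theorem step_pt₂ (ev : 𝔹.B₂ →ₐ[κ] κ) (J : IdealDatum 𝔹) (hJ : J.toGlued.IsLineBundle) (n : ℤ)
    (hf : FinCoh (J.toGlued.twist n)) :
    FinCoh ((IdealDatum.ofI₂ (RingHom.ker ev) * J).toGlued.twist n) ∧
    gchi ((IdealDatum.ofI₂ (RingHom.ker ev) * J).toGlued.twist n) =
      gchi (J.toGlued.twist n) - 1 := by
  set P := IdealDatum.ofI₂ (RingHom.ker ev) with hP
  let φ := inclHom P J n
  have hinj₁ : Injective φ.φ₁ :=
    Submodule.inclusion_injective (Ideal.mul_le_right : P.I₁ * J.I₁ ≤ J.I₁)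
  have hinj₂ : Injective φ.φ₂ :=
    Submodule.inclusion_injective (Ideal.mul_le_right : P.I₂ * J.I₂ ≤ J.I₂)
  have : Module.Invertible 𝔹.B₁ J.I₁ := hJ.inv₁
  have : Module.Invertible 𝔹.B₂ J.I₂ := hJ.inv₂
  have : Module.Finite κ (𝔹.B₂ ⧸ P.I₂) := finite_quot_ker_ev ev
  have : Module.Finite κ (𝔹.B₁ ⧸ P.I₁) := finite_quot_ofI₂_I₁ ev
  have fin₁ : Module.Finite κ ((J.toGlued.twist n).N₁ ⧸ LinearMap.range φ.φ₁) :=
    finite_quot_mulIncl P.I₁ J.I₁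
  have fin₂ : Module.Finite κ ((J.toGlued.twist n).N₂ ⧸ LinearMap.range φ.φ₂) :=
    finite_quot_mulIncl P.I₂ J.I₂
  have hf' : FinCoh ((P * J).toGlued.twist n) :=
    finCoh_of_injective_of_finite' φ hinj₁ hinj₂ hf
  have hchi := gchi_of_injective_of_finite φ hinj₁ hinj₂ hf'
  have hT : gh0 (cokerG φ) = 1 := by
    rw [gh0_eq_finrank_N₂ (cokerG φ) (ev 𝔹.g)
      (fun t => smul_quot_mulIncl_eq_zero P.I₁ J.I₁ (one_sub_mem_ofI₂ ev) t)]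
    exact (finrank_quot_mulIncl P.I₂ J.I₂).trans (finrank_quot_ker_ev ev)
  refine ⟨hf', ?_⟩
  rw [hchi, hT]
  ring

end Step₂

section One

variable {R : Type u} [CommRing R]

/-- The glued module of the unit ideal datum is the structure sheaf. -/
def oneIso (𝔹 : TwoChart R) :
    GluedModule.Iso (1 : IdealDatum 𝔹).toGlued (GluedModule.unit 𝔹) where
  e₁ := Submodule.topEquiv
  e₂ := Submodule.topEquiv
  e₁₂ := (LinearEquiv.ofEq _ _ (Ideal.map_top 𝔹.r₁)).trans Submodule.topEquiv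
  comm₁ _ := rfl
  comm₂ _ := rfl

end One

section Curve

variable {k : Type u} [Field k] [IsAlgClosed k] (𝒞 : CurveData k)
  (κ : Type u) [Field κ] [IsAlgClosed κ] [Algebra k κ]

/-- The chart of the curve over an algebraically closed field is a curve chart. -/
theorem isCurveChart : IsCurveChart (𝒞.chart κ) := isCurveChart_chart 𝒞 κ

theorem finCoh_gchi_one (n : ℤ) :
    FinCoh ((1 : IdealDatum (𝒞.chart κ)).toGlued.twist n) ∧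
      gchi ((1 : IdealDatum (𝒞.chart κ)).toGlued.twist n) =
        gchi ((GluedModule.unit (𝒞.chart κ)).twist n) := by
  have e := (oneIso (𝒞.chart κ)).twist n
  have h : FinCoh ((GluedModule.unit (𝒞.chart κ)).twist n) :=
    (isCurveChart 𝒞 κ).finCoh_of_isLineBundle
      (GluedModule.twist_isLineBundle (GluedModule.unit_isLineBundle _) n)
  exact ⟨finCoh_congr e.symm h, gchi_congr e⟩

/-- Finite-dimensional cohomology and Euler characteristic of point-product families, given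
that point-product families are line bundles (leaf (P1)). -/
theorem finCoh_gchi_fam (n : ℤ)
    (hLB : ∀ (m₁ m₂ : ℕ) (x : Fin m₁ → 𝒞.A₁ →ₐ[k] κ) (y : Fin m₂ → 𝒞.A₂ →ₐ[k] κ),
      (fam 𝒞 κ n x y).IsLineBundle) :
    ∀ (m₁ m₂ : ℕ) (x : Fin m₁ → 𝒞.A₁ →ₐ[k] κ) (y : Fin m₂ → 𝒞.A₂ →ₐ[k] κ),
      FinCoh (fam 𝒞 κ n x y) ∧
        gchi (fam 𝒞 κ n x y) =
          gchi ((GluedModule.unit (𝒞.chart κ)).twist n) - ((m₁ + m₂ : ℕ) : ℤ) := by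
  intro m₁
  induction m₁ with
  | zero =>
    intro m₂
    induction m₂ with
    | zero =>
      intro x y
      have key : (∏ j : Fin 0, pt₁ 𝒞 κ (x j)) * ∏ j : Fin 0, pt₂ 𝒞 κ (y j) = 1 := by
        simp
      unfold fam
      rw [key]
      simpa using finCoh_gchi_one 𝒞 κ n
    | succ m₂ ih =>
      intro x y
      have hJ := hLB 0 m₂ x (fun j => y j.succ)
      obtain ⟨hf, hg⟩ := ih x (fun j => y j.succ)
      have key : (∏ j : Fin 0, pt₁ 𝒞 κ (x j)) * ∏ j : Fin (m₂ + 1), pt₂ 𝒞 κ (y j) =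
          pt₂ 𝒞 κ (y 0) *
            ((∏ j : Fin 0, pt₁ 𝒞 κ (x j)) * ∏ j : Fin m₂, pt₂ 𝒞 κ (y j.succ)) := by
        rw [Fin.prod_univ_succ, mul_left_comm]
      unfold fam at hJ hf hg ⊢
      rw [key]
      obtain ⟨h1, h2⟩ := step_pt₂ (ev₂ 𝒞 κ (y 0)) _ ⟨hJ.inv₁, hJ.inv₂⟩ n hf
      refine ⟨h1, ?_⟩
      rw [show pt₂ 𝒞 κ (y 0) = IdealDatum.ofI₂ (RingHom.ker (ev₂ 𝒞 κ (y 0))) from rfl, h2, hg]
      push_cast
      ring
  | succ m₁ ih =>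
    intro m₂ x y
    have hJ := hLB m₁ m₂ (fun j => x j.succ) y
    obtain ⟨hf, hg⟩ := ih m₂ (fun j => x j.succ) y
    have key : (∏ j : Fin (m₁ + 1), pt₁ 𝒞 κ (x j)) * ∏ j : Fin m₂, pt₂ 𝒞 κ (y j) =
        pt₁ 𝒞 κ (x 0) *
          ((∏ j : Fin m₁, pt₁ 𝒞 κ (x j.succ)) * ∏ j : Fin m₂, pt₂ 𝒞 κ (y j)) := by
      rw [Fin.prod_univ_succ, mul_assoc]
    unfold fam at hJ hf hg ⊢
    rw [key]
    obtain ⟨h1, h2⟩ := step_pt₁ (ev₁ 𝒞 κ (x 0)) _ ⟨hJ.inv₁, hJ.inv₂⟩ n hf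
    refine ⟨h1, ?_⟩
    rw [show pt₁ 𝒞 κ (x 0) = IdealDatum.ofI₁ (RingHom.ker (ev₁ 𝒞 κ (x 0))) from rfl, h2, hg]
    push_cast
    ring

/-- (Count), modulo (P1). -/
theorem chi_fam_of_isLineBundle (n : ℤ)
    (hLB : ∀ (m₁ m₂ : ℕ) (x : Fin m₁ → 𝒞.A₁ →ₐ[k] κ) (y : Fin m₂ → 𝒞.A₂ →ₐ[k] κ),
      (fam 𝒞 κ n x y).IsLineBundle)
    {m₁ m₂ : ℕ} (x : Fin m₁ → 𝒞.A₁ →ₐ[k] κ) (y : Fin m₂ → 𝒞.A₂ →ₐ[k] κ) :
    GluedModule.chi (fam 𝒞 κ n x y) =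
      GluedModule.chi ((GluedModule.unit (𝒞.chart κ)).twist n) - ((m₁ + m₂ : ℕ) : ℤ) :=
  (finCoh_gchi_fam 𝒞 κ n hLB m₁ m₂ x y).2

end Curve

end Fermat.Agent.S25.CONN.Count
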