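/-
S25 (Jacobian), package A3 piece INVQUOT (helper1451).  Mathlib-only, no sorry.

Quotients of invertible modules:
* `dual_smul_comm`: rank one, `ψ a • n = ψ n • a`;
* `exists_dual_ne_zero`: a nonzero element of an invertible module is detected by a functional;
* `nonempty_quot_smul_top_equiv`: `N ⧸ I N ≃ B ⧸ I` for `B ⧸ I` semilocal;
* `finrank_quot_smul_top`: `dim_κ N ⧸ I N = dim_κ B ⧸ I` when the latter is finite;
* `finite_quot_span_singleton`: `N ⧸ B a` is finite-dimensional for `a ≠ 0` (Dedekind domain of
  finite type over a field, or any domain all of whose proper principal quotients are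
  finite-dimensional).
-/
import Mathlib

set_option autoImplicit false

namespace Fermat.Agent.S25.CONN.Count.H1451

open TensorProduct

section InvQuot

variable {B : Type*} [CommRing B] {N : Type*} [AddCommGroup N] [Module B N]
  [Module.Invertible B N]

/-- Invertible modules have rank one: `ψ a • n = ψ n • a`. -/
theorem dual_smul_comm (ψ : Module.Dual B N) (a n : N) : ψ a • n = ψ n • a := by
  have h := Module.Invertible.tmul_comm (R := B) (m₁ := a) (m₂ := n)
  have h2 := congrArg (TensorProduct.lift ((LinearMap.lsmul B N).comp ψ)) h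
  simpa using h2

/-- A nonzero element of an invertible module is detected by a linear functional. -/
theorem exists_dual_ne_zero {a : N} (ha : a ≠ 0) : ∃ ψ : Module.Dual B N, ψ a ≠ 0 := by
  by_contra hcon
  have hcon' : ∀ ψ : Module.Dual B N, ψ a = 0 := by
    intro ψ
    by_contra h
    exact hcon ⟨ψ, h⟩
  apply ha
  have key : (LinearMap.toSpanSingleton B N a).comp (contractLeft B N) =
      TensorProduct.lift ((LinearMap.lsmul B N).comp (Module.Dual.eval B N a)) := by
    apply TensorProduct.ext'
    intro ψ m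
    simp only [LinearMap.comp_apply, contractLeft_apply, LinearMap.toSpanSingleton_apply,
      TensorProduct.lift.tmul, LinearMap.lsmul_apply, Module.Dual.eval_apply]
    exact (dual_smul_comm ψ a m).symm
  have hzero : TensorProduct.lift ((LinearMap.lsmul B N).comp (Module.Dual.eval B N a)) = 0 := by
    apply TensorProduct.ext'
    intro ψ m
    simp [hcon' ψ]
  have h1 := DFunLike.congr_fun key ((Module.Invertible.linearEquiv B N).symm 1)
  rw [hzero] at h1
  have h2 : contractLeft B N ((Module.Invertible.linearEquiv B N).symm 1) = 1 :=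
    (Module.Invertible.linearEquiv B N).apply_symm_apply 1
  simpa [h2] using h1

/-- Modulo an ideal with semilocal quotient, an invertible module is free of rank one. -/
theorem nonempty_quot_smul_top_equiv (I : Ideal B) [Finite (MaximalSpectrum (B ⧸ I))] :
    Nonempty ((N ⧸ I • (⊤ : Submodule B N)) ≃ₗ[B] (B ⧸ I)) := by
  have hfree : Module.Free (B ⧸ I) ((B ⧸ I) ⊗[B] N) := inferInstance
  obtain ⟨e⟩ := Module.Invertible.free_iff_linearEquiv.mp hfree
  exact ⟨(quotTensorEquivQuotSMul N I).symm ≪≫ₗ e.restrictScalars B⟩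

variable {κ : Type*} [Field κ] [Algebra κ B] [Module κ N] [IsScalarTower κ B N]

/-- `N ⧸ I N ≃ B ⧸ I` over `κ` if `B ⧸ I` is finite-dimensional. -/
theorem nonempty_quot_smul_top_equiv_of_finite (I : Ideal B) [Module.Finite κ (B ⧸ I)] :
    Nonempty ((N ⧸ I • (⊤ : Submodule B N)) ≃ₗ[κ] (B ⧸ I)) := by
  have : IsArtinianRing (B ⧸ I) := IsArtinianRing.of_finite κ (B ⧸ I)
  obtain ⟨e⟩ := nonempty_quot_smul_top_equiv (N := N) I
  exact ⟨e.restrictScalars κ⟩

theorem finite_quot_smul_top (I : Ideal B) [Module.Finite κ (B ⧸ I)] :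
    Module.Finite κ (N ⧸ I • (⊤ : Submodule B N)) := by
  obtain ⟨e⟩ := nonempty_quot_smul_top_equiv_of_finite (κ := κ) (N := N) I
  exact Module.Finite.equiv e.symm

theorem finrank_quot_smul_top (I : Ideal B) [Module.Finite κ (B ⧸ I)] :
    Module.finrank κ (N ⧸ I • (⊤ : Submodule B N)) = Module.finrank κ (B ⧸ I) := by
  obtain ⟨e⟩ := nonempty_quot_smul_top_equiv_of_finite (κ := κ) (N := N) I
  exact e.finrank_eq

/-- `N ⧸ B a` is finite-dimensional for `a ≠ 0`, if all quotients of `B` by nonzero principal
ideals are. -/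
theorem finite_quot_span_singleton_of
    (hB : ∀ b : B, b ≠ 0 → Module.Finite κ (B ⧸ Ideal.span {b})) {a : N} (ha : a ≠ 0) :
    Module.Finite κ (N ⧸ Submodule.span B {a}) := by
  obtain ⟨ψ, hψ⟩ := exists_dual_ne_zero (B := B) ha
  have := hB (ψ a) hψ
  have hfin : Module.Finite κ (N ⧸ Ideal.span {ψ a} • (⊤ : Submodule B N)) :=
    finite_quot_smul_top (κ := κ) (N := N) (Ideal.span {ψ a})
  have hle : Ideal.span {ψ a} • (⊤ : Submodule B N) ≤ Submodule.span B {a} := by
    rw [Submodule.smul_le]
    intro r hr n _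
    obtain ⟨c, rfl⟩ := Ideal.mem_span_singleton'.mp hr
    rw [mul_smul, dual_smul_comm ψ a n, ← mul_smul]
    exact Submodule.smul_mem _ _ (Submodule.mem_span_singleton_self a)
  let q : (N ⧸ Ideal.span {ψ a} • (⊤ : Submodule B N)) →ₗ[B] (N ⧸ Submodule.span B {a}) :=
    Submodule.mapQ _ _ LinearMap.id hle
  have hq : Function.Surjective (q.restrictScalars κ) := by
    intro y
    obtain ⟨n, rfl⟩ := Submodule.Quotient.mk_surjective _ y
    exact ⟨Submodule.Quotient.mk n, rfl⟩
  exact Module.Finite.of_surjective (q.restrictScalars κ) hq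

/-- In a Dedekind domain of finite type over a field, quotients by nonzero ideals are
finite-dimensional. -/
theorem finite_quotient_of_ne_bot [IsDomain B] [Ring.DimensionLEOne B]
    [Algebra.FiniteType κ B] (I : Ideal B) (hI : I ≠ ⊥) : Module.Finite κ (B ⧸ I) := by
  have hft : Algebra.FiniteType κ (B ⧸ I) :=
    Algebra.FiniteType.of_surjective (Ideal.Quotient.mkₐ κ I) (Ideal.Quotient.mkₐ_surjective κ I)
  rw [Module.finite_iff_krullDimLE_zero,
    Ideal.krullDimLE_zero_quotient_iff_forall_minimalPrimes_isMaximal]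
  intro J hJ
  have hJprime : J.IsPrime := hJ.1.1
  have hIJ : I ≤ J := hJ.1.2
  have hJne : J ≠ ⊥ := by
    rintro rfl
    exact hI (le_bot_iff.mp hIJ)
  exact hJprime.isMaximal hJne

/-- `N ⧸ B a` is finite-dimensional for `a ≠ 0`: invertible module over a one-dimensional
domain of finite type over a field. -/
theorem finite_quot_span_singleton [IsDomain B] [Ring.DimensionLEOne B]
    [Algebra.FiniteType κ B] {a : N} (ha : a ≠ 0) :
    Module.Finite κ (N ⧸ Submodule.span B {a}) :=
  finite_quot_span_singleton_of (κ := κ) (fun b hb => finite_quotient_of_ne_bot (κ := κ) _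
    (by simpa using hb)) ha

end InvQuot

end Fermat.Agent.S25.CONN.Count.H1451
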