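/-
S25 (Jacobian), package A3 pieces SECTION + TWIST-CHI + FINCOH + DEG (helper1451).
On Core + A1/Basic (helper7630, verbatim) + Euler1451 + InvQuot1451 + Coker1451.  No sorry.

For a two-chart `𝔹` over a field `κ` whose charts are one-dimensional domains of finite type
(`B₁₂` a common localisation, `H⁰(O) = κ`, `H¹(O)` finite-dimensional):

* `sectionHom N s : Hom (unit 𝔹) N` for a global section `s`;
* a nonzero section of a line bundle is injective with finite-dimensional chart cokernels;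
* `finCoh_of_isLineBundle`: every line bundle has finite-dimensional cohomology
  (no use of (F): twist until there is a section);
* `gchi_twist`: `χ(N⟨n⟩) = χ(N) + n · n₀`, `n₀ = dim_κ B₂/(g)`;
* `deg N := χ(N) - χ(O)`; `deg_nonneg_of_section`; `isIso_unit_of_section_of_deg_eq_zero`;
  `H0_eq_bot_of_deg_neg`.
-/
import Fermat.Agent.S25.CONN.Count.Coker1451
import Fermat.Agent.S25.CONN.Count.InvQuot1451

set_option autoImplicit false

universe u

namespace Fermat.Agent.S25.CONN.Count.H1451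

open Function

/-! ### Invariance under isomorphism -/

section IsoInv

variable {κ : Type u} [Field κ] {𝔹 : TwoChart κ} {N N' : GluedModule 𝔹}

theorem gh0_congr (e : GluedModule.Iso N N') : gh0 N = gh0 N' :=
  LinearEquiv.finrank_eq e.H0

theorem gh1_congr (e : GluedModule.Iso N N') : gh1 N = gh1 N' :=
  LinearEquiv.finrank_eq e.H1

theorem gchi_congr (e : GluedModule.Iso N N') : gchi N = gchi N' := by
  rw [gchi_eq, gchi_eq, gh0_congr e, gh1_congr e]

theorem finCoh_congr (e : GluedModule.Iso N N') (h : FinCoh N) : FinCoh N' := by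
  have := h.finite_H0
  have := h.finite_H1
  exact ⟨Module.Finite.equiv e.H0, Module.Finite.equiv e.H1⟩

theorem finCoh_congr_iff (e : GluedModule.Iso N N') : FinCoh N ↔ FinCoh N' :=
  ⟨finCoh_congr e, finCoh_congr e.symm⟩

end IsoInv

/-! ### Sections as morphisms from the unit -/

section SectionHom

variable {R : Type u} [CommRing R] {𝔹 : TwoChart R}

/-- A global section `s` of `N` as a morphism `O → N`, `1 ↦ s`. -/
def sectionHom (N : GluedModule 𝔹) (s : N.H0) : GluedModule.Hom (GluedModule.unit 𝔹) N where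
  φ₁ := LinearMap.toSpanSingleton 𝔹.B₁ N.N₁ (s : N.N₁ × N.N₂).1
  φ₂ := LinearMap.toSpanSingleton 𝔹.B₂ N.N₂ (s : N.N₁ × N.N₂).2
  φ₁₂ := LinearMap.toSpanSingleton 𝔹.B₁₂ N.N₁₂ (N.ι₁ (s : N.N₁ × N.N₂).1)
  comm₁ b := by
    change 𝔹.r₁ b • N.ι₁ (s : N.N₁ × N.N₂).1 = N.ι₁ (b • (s : N.N₁ × N.N₂).1)
    rw [N.ι₁_smul]
  comm₂ b := by
    change 𝔹.r₂ b • N.ι₁ (s : N.N₁ × N.N₂).1 = N.ι₂ (b • (s : N.N₁ × N.N₂).2)
    rw [N.ι₂_smul, (N.mem_H0 s).mp s.2]

@[simp] theorem sectionHom_φ₁_apply (N : GluedModule 𝔹) (s : N.H0) (b : 𝔹.B₁) :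
    (sectionHom N s).φ₁ b = b • (s : N.N₁ × N.N₂).1 := rfl

@[simp] theorem sectionHom_φ₂_apply (N : GluedModule 𝔹) (s : N.H0) (b : 𝔹.B₂) :
    (sectionHom N s).φ₂ b = b • (s : N.N₁ × N.N₂).2 := rfl

theorem range_sectionHom_φ₁ (N : GluedModule 𝔹) (s : N.H0) :
    LinearMap.range (sectionHom N s).φ₁ = Submodule.span 𝔹.B₁ {(s : N.N₁ × N.N₂).1} :=
  LinearMap.range_toSpanSingleton _

theorem range_sectionHom_φ₂ (N : GluedModule 𝔹) (s : N.H0) :
    LinearMap.range (sectionHom N s).φ₂ = Submodule.span 𝔹.B₂ {(s : N.N₁ × N.N₂).2} :=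
  LinearMap.range_toSpanSingleton _

end SectionHom

/-! ### Torsion-freeness of invertible modules over a domain -/

section TorsionFree

variable {B : Type*} [CommRing B] [IsDomain B] {M : Type*} [AddCommGroup M] [Module B M]
  [Module.Invertible B M]

theorem smul_eq_zero_invertible {b : B} {m : M} (h : b • m = 0) : b = 0 ∨ m = 0 := by
  by_contra hcon
  rw [not_or] at hcon
  obtain ⟨ψ, hψ⟩ := exists_dual_ne_zero (B := B) hcon.2
  have : b * ψ m = 0 := by
    have := congrArg ψ h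
    simpa using this
  rcases mul_eq_zero.mp this with h1 | h1
  · exact hcon.1 h1
  · exact hψ h1

theorem toSpanSingleton_injective_invertible {m : M} (hm : m ≠ 0) :
    Injective (LinearMap.toSpanSingleton B M m) := by
  rw [injective_iff_map_eq_zero]
  intro b hb
  rcases smul_eq_zero_invertible (B := B) (b := b) (m := m) hb with h | h
  · exact h
  · exact absurd h hm

end TorsionFree

/-! ### Curve charts over a field -/

section Curve

variable {κ : Type u} [Field κ] {𝔹 : TwoChart κ}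

theorem f_ne_zero [Nontrivial 𝔹.B₁₂] : 𝔹.f ≠ 0 := by
  intro h
  have := 𝔹.fg
  rw [h, map_zero, zero_mul] at this
  exact zero_ne_one this

theorem g_ne_zero [Nontrivial 𝔹.B₁₂] : 𝔹.g ≠ 0 := by
  intro h
  have := 𝔹.fg
  rw [h, map_zero, mul_zero] at this
  exact zero_ne_one this

theorem nontrivial_B₁₂ [Nontrivial 𝔹.B₁] (inj₁ : Injective 𝔹.r₁) : Nontrivial 𝔹.B₁₂ :=
  ⟨⟨𝔹.r₁ 0, 𝔹.r₁ 1, fun h => zero_ne_one (inj₁ h)⟩⟩

/-- `ι₁` is injective on an invertible module over a domain. -/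
theorem ι₁_injective_of_invertible [IsDomain 𝔹.B₁] (inj₁ : Injective 𝔹.r₁) (N : GluedModule 𝔹)
    [Module.Invertible 𝔹.B₁ N.N₁] : Injective N.ι₁ := by
  have := nontrivial_B₁₂ (𝔹 := 𝔹) inj₁
  rw [injective_iff_map_eq_zero]
  intro n hn
  obtain ⟨m, hm⟩ := N.ker₁ n hn
  rcases smul_eq_zero_invertible (B := 𝔹.B₁) hm with h | h
  · exact absurd h (pow_ne_zero m (f_ne_zero (𝔹 := 𝔹)))
  · exact h

/-- `ι₂` is injective on an invertible module over a domain. -/
theorem ι₂_injective_of_invertible [IsDomain 𝔹.B₂] (inj₂ : Injective 𝔹.r₂) (N : GluedModule 𝔹)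
    [Module.Invertible 𝔹.B₂ N.N₂] : Injective N.ι₂ := by
  have : Nontrivial 𝔹.B₁₂ := ⟨⟨𝔹.r₂ 0, 𝔹.r₂ 1, fun h => zero_ne_one (inj₂ h)⟩⟩
  rw [injective_iff_map_eq_zero]
  intro n hn
  obtain ⟨m, hm⟩ := N.ker₂ n hn
  rcases smul_eq_zero_invertible (B := 𝔹.B₂) hm with h | h
  · exact absurd h (pow_ne_zero m (g_ne_zero (𝔹 := 𝔹)))
  · exact h

/-- The hypotheses making a two-chart over a field a "curve": charts are one-dimensional
domains of finite type, `B₁₂` is a common localisation (injective restrictions), the only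
global functions are constants, and `H¹(O)` is finite-dimensional. -/
structure IsCurveChart (𝔹 : TwoChart κ) : Prop where
  dom₁ : IsDomain 𝔹.B₁
  dom₂ : IsDomain 𝔹.B₂
  inj₁ : Injective 𝔹.r₁
  inj₂ : Injective 𝔹.r₂
  dim₁ : Ring.DimensionLEOne 𝔹.B₁
  dim₂ : Ring.DimensionLEOne 𝔹.B₂
  ft₁ : Algebra.FiniteType κ 𝔹.B₁
  ft₂ : Algebra.FiniteType κ 𝔹.B₂
  glob : ∀ (a₁ : 𝔹.B₁) (a₂ : 𝔹.B₂), 𝔹.r₁ a₁ = 𝔹.r₂ a₂ → ∃ c : κ, a₁ = algebraMap κ 𝔹.B₁ c
  finH1 : Module.Finite κ (GluedModule.unit 𝔹).H1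

namespace IsCurveChart

variable (h𝔹 : IsCurveChart 𝔹)
include h𝔹

theorem nontrivial₁₂ : Nontrivial 𝔹.B₁₂ :=
  have := h𝔹.dom₁
  nontrivial_B₁₂ h𝔹.inj₁

/-- `H⁰(O) = κ` is finite-dimensional. -/
theorem finite_H0_unit : Module.Finite κ (GluedModule.unit 𝔹).H0 := by
  let c : κ →ₗ[κ] (GluedModule.unit 𝔹).H0 :=
    { toFun := fun a => ⟨(algebraMap κ 𝔹.B₁ a, algebraMap κ 𝔹.B₂ a), by
        rw [GluedModule.mem_H0]
        change 𝔹.r₁ (algebraMap κ 𝔹.B₁ a) = 𝔹.r₂ (algebraMap κ 𝔹.B₂ a)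
        rw [AlgHom.commutes, AlgHom.commutes]⟩
      map_add' := fun a b => by
        apply Subtype.ext
        simp
      map_smul' := fun a b => by
        apply Subtype.ext
        simp [Algebra.smul_def] }
  have hc : Surjective c := by
    rintro ⟨⟨a₁, a₂⟩, hmem⟩
    have hmem' : 𝔹.r₁ a₁ = 𝔹.r₂ a₂ := (GluedModule.mem_H0 _ _).mp hmem
    obtain ⟨a, rfl⟩ := h𝔹.glob a₁ a₂ hmem'
    refine ⟨a, Subtype.ext ?_⟩
    have : a₂ = algebraMap κ 𝔹.B₂ a := by
      apply h𝔹.inj₂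
      rw [← hmem', AlgHom.commutes, AlgHom.commutes]
    subst this
    rfl
  exact Module.Finite.of_surjective c hc

/-- `gh0 O = 1`. -/
theorem gh0_unit : gh0 (GluedModule.unit 𝔹) = 1 := by
  have := h𝔹.nontrivial₁₂
  have := h𝔹.dom₁
  let c : κ →ₗ[κ] (GluedModule.unit 𝔹).H0 :=
    { toFun := fun a => ⟨(algebraMap κ 𝔹.B₁ a, algebraMap κ 𝔹.B₂ a), by
        rw [GluedModule.mem_H0]
        change 𝔹.r₁ (algebraMap κ 𝔹.B₁ a) = 𝔹.r₂ (algebraMap κ 𝔹.B₂ a)
        rw [AlgHom.commutes, AlgHom.commutes]⟩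
      map_add' := fun a b => by
        apply Subtype.ext
        simp
      map_smul' := fun a b => by
        apply Subtype.ext
        simp [Algebra.smul_def] }
  have hc : Surjective c := by
    rintro ⟨⟨a₁, a₂⟩, hmem⟩
    have hmem' : 𝔹.r₁ a₁ = 𝔹.r₂ a₂ := (GluedModule.mem_H0 _ _).mp hmem
    obtain ⟨a, rfl⟩ := h𝔹.glob a₁ a₂ hmem'
    refine ⟨a, Subtype.ext ?_⟩
    have : a₂ = algebraMap κ 𝔹.B₂ a := by
      apply h𝔹.inj₂
      rw [← hmem', AlgHom.commutes, AlgHom.commutes]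
    subst this
    rfl
  have hi : Injective c := by
    intro a b hab
    have h1 : algebraMap κ 𝔹.B₁ a = algebraMap κ 𝔹.B₁ b := congrArg (fun z => z.1.1) hab
    exact (algebraMap κ 𝔹.B₁).injective h1
  have e : κ ≃ₗ[κ] (GluedModule.unit 𝔹).H0 := LinearEquiv.ofBijective c ⟨hi, hc⟩
  rw [gh0_eq, ← e.finrank_eq, Module.finrank_self]

/-- The structure sheaf has finite-dimensional cohomology. -/
theorem finCoh_unit : FinCoh (GluedModule.unit 𝔹) :=
  ⟨h𝔹.finite_H0_unit, h𝔹.finH1⟩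

/-- Components of a nonzero section of a line bundle are nonzero. -/
theorem section_fst_ne_zero {N : GluedModule 𝔹} (hN : N.IsLineBundle) {s : N.H0}
    (hs : s ≠ 0) : (s : N.N₁ × N.N₂).1 ≠ 0 := by
  have := h𝔹.dom₂
  have := hN.inv₂
  intro h1
  apply hs
  have h2 : N.ι₂ (s : N.N₁ × N.N₂).2 = 0 := by
    rw [← (N.mem_H0 s).mp s.2, h1, map_zero]
  have h3 : (s : N.N₁ × N.N₂).2 = 0 :=
    ι₂_injective_of_invertible h𝔹.inj₂ N (by rw [h2, map_zero])
  exact Subtype.ext (Prod.ext h1 h3)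

theorem section_snd_ne_zero {N : GluedModule 𝔹} (hN : N.IsLineBundle) {s : N.H0}
    (hs : s ≠ 0) : (s : N.N₁ × N.N₂).2 ≠ 0 := by
  have := h𝔹.dom₁
  have := hN.inv₁
  intro h1
  apply hs
  have h2 : N.ι₁ (s : N.N₁ × N.N₂).1 = 0 := by
    rw [(N.mem_H0 s).mp s.2, h1, map_zero]
  have h3 : (s : N.N₁ × N.N₂).1 = 0 :=
    ι₁_injective_of_invertible h𝔹.inj₁ N (by rw [h2, map_zero])
  exact Subtype.ext (Prod.ext h3 h1)

theorem sectionHom_injective₁ {N : GluedModule 𝔹} (hN : N.IsLineBundle) {s : N.H0}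
    (hs : s ≠ 0) : Injective (sectionHom N s).φ₁ := by
  have := h𝔹.dom₁
  have := hN.inv₁
  exact toSpanSingleton_injective_invertible (h𝔹.section_fst_ne_zero hN hs)

theorem sectionHom_injective₂ {N : GluedModule 𝔹} (hN : N.IsLineBundle) {s : N.H0}
    (hs : s ≠ 0) : Injective (sectionHom N s).φ₂ := by
  have := h𝔹.dom₂
  have := hN.inv₂
  exact toSpanSingleton_injective_invertible (h𝔹.section_snd_ne_zero hN hs)

theorem finite_coker_sectionHom₁ {N : GluedModule 𝔹} (hN : N.IsLineBundle) {s : N.H0}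
    (hs : s ≠ 0) : Module.Finite κ (N.N₁ ⧸ LinearMap.range (sectionHom N s).φ₁) := by
  have := h𝔹.dom₁
  have := h𝔹.dim₁
  have := h𝔹.ft₁
  have := hN.inv₁
  have hfin : Module.Finite κ (N.N₁ ⧸ Submodule.span 𝔹.B₁ {(s : N.N₁ × N.N₂).1}) :=
    finite_quot_span_singleton (κ := κ) (h𝔹.section_fst_ne_zero hN hs)
  exact Module.Finite.equiv
    ((Submodule.quotEquivOfEq _ _ (range_sectionHom_φ₁ N s).symm).restrictScalars κ)

theorem finite_coker_sectionHom₂ {N : GluedModule 𝔹} (hN : N.IsLineBundle) {s : N.H0}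
    (hs : s ≠ 0) : Module.Finite κ (N.N₂ ⧸ LinearMap.range (sectionHom N s).φ₂) := by
  have := h𝔹.dom₂
  have := h𝔹.dim₂
  have := h𝔹.ft₂
  have := hN.inv₂
  have hfin : Module.Finite κ (N.N₂ ⧸ Submodule.span 𝔹.B₂ {(s : N.N₁ × N.N₂).2}) :=
    finite_quot_span_singleton (κ := κ) (h𝔹.section_snd_ne_zero hN hs)
  exact Module.Finite.equiv
    ((Submodule.quotEquivOfEq _ _ (range_sectionHom_φ₂ N s).symm).restrictScalars κ)

/-- A line bundle with a nonzero section has finite-dimensional cohomology. -/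
theorem finCoh_of_section {N : GluedModule 𝔹} (hN : N.IsLineBundle) {s : N.H0}
    (hs : s ≠ 0) : FinCoh N := by
  have := h𝔹.finite_coker_sectionHom₁ hN hs
  have := h𝔹.finite_coker_sectionHom₂ hN hs
  exact finCoh_of_injective_of_finite (sectionHom N s) (h𝔹.sectionHom_injective₁ hN hs)
    (h𝔹.sectionHom_injective₂ hN hs) h𝔹.finCoh_unit

/-- A line bundle with a nonzero section: `χ(N) = χ(O) + dim H⁰(N/O)`. -/
theorem gchi_of_section {N : GluedModule 𝔹} (hN : N.IsLineBundle) {s : N.H0}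
    (hs : s ≠ 0) :
    gchi N = gchi (GluedModule.unit 𝔹) + (gh0 (cokerG (sectionHom N s)) : ℤ) := by
  have := h𝔹.finite_coker_sectionHom₁ hN hs
  have := h𝔹.finite_coker_sectionHom₂ hN hs
  exact gchi_of_injective_of_finite (sectionHom N s) (h𝔹.sectionHom_injective₁ hN hs)
    (h𝔹.sectionHom_injective₂ hN hs) h𝔹.finCoh_unit

/-- A line bundle with a nonzero section has `χ(N) ≥ χ(O)`. -/
theorem gchi_unit_le_of_section {N : GluedModule 𝔹} (hN : N.IsLineBundle) {s : N.H0}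
    (hs : s ≠ 0) : gchi (GluedModule.unit 𝔹) ≤ gchi N := by
  rw [h𝔹.gchi_of_section hN hs]
  have : (0 : ℤ) ≤ (gh0 (cokerG (sectionHom N s)) : ℤ) := Int.natCast_nonneg _
  linarith

/-- A line bundle with a nonzero section and `χ(N) = χ(O)` is trivial. -/
theorem isIso_unit_of_section_of_gchi_eq {N : GluedModule 𝔹} (hN : N.IsLineBundle)
    {s : N.H0} (hs : s ≠ 0) (hχ : gchi N = gchi (GluedModule.unit 𝔹)) :
    GluedModule.IsIso (GluedModule.unit 𝔹) N := by
  have := h𝔹.finite_coker_sectionHom₁ hN hs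
  have := h𝔹.finite_coker_sectionHom₂ hN hs
  have i₁ := h𝔹.sectionHom_injective₁ hN hs
  have i₂ := h𝔹.sectionHom_injective₂ hN hs
  obtain ⟨s₁, s₂, s₁₂⟩ := surjective_of_gchi_eq (sectionHom N s) i₁ i₂ h𝔹.finCoh_unit hχ
  exact ⟨isoOfBijective (sectionHom N s) ⟨i₁, s₁⟩ ⟨i₂, s₂⟩
    ⟨injective₁₂_of_injective₁ _ i₁, s₁₂⟩⟩

end IsCurveChart

/-! ### Twists -/

/-- The inclusion `N → N⟨1⟩`: identity on chart 1, multiplication by `g` on chart 2. -/
def twistIncl (N : GluedModule 𝔹) : GluedModule.Hom N (N.twist 1) where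
  φ₁ := LinearMap.id
  φ₂ := LinearMap.lsmul 𝔹.B₂ N.N₂ 𝔹.g
  φ₁₂ := LinearMap.id
  comm₁ _ := rfl
  comm₂ x := by
    change N.ι₂ x = ((𝔹.u ^ (1 : ℤ) : 𝔹.B₁₂ˣ) : 𝔹.B₁₂) • N.ι₂ (𝔹.g • x)
    rw [zpow_one, N.ι₂_smul, ← mul_smul, TwoChart.u_val, 𝔹.fg, one_smul]

theorem range_twistIncl_φ₂ (N : GluedModule 𝔹) :
    LinearMap.range (twistIncl N).φ₂ = Ideal.span {𝔹.g} • (⊤ : Submodule 𝔹.B₂ N.N₂) := by
  apply le_antisymm
  · rintro _ ⟨x, rfl⟩
    exact Submodule.smul_mem_smul (Ideal.mem_span_singleton_self _) Submodule.mem_top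
  · rw [Submodule.smul_le]
    intro r hr n _
    obtain ⟨c, rfl⟩ := Ideal.mem_span_singleton'.mp hr
    exact ⟨c • n, by
      change 𝔹.g • c • n = (c * 𝔹.g) • n
      rw [← mul_smul, mul_comm]⟩

namespace IsCurveChart

variable (h𝔹 : IsCurveChart 𝔹)
include h𝔹

/-- The degree of `f : C → P¹`: `n₀ = dim_κ B₂/(g)`. -/
noncomputable def n₀ (_h𝔹 : IsCurveChart 𝔹) : ℕ := Module.finrank κ (𝔹.B₂ ⧸ Ideal.span {𝔹.g})

theorem finite_quot_g : Module.Finite κ (𝔹.B₂ ⧸ Ideal.span {𝔹.g}) := by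
  have := h𝔹.dom₂
  have := h𝔹.dim₂
  have := h𝔹.ft₂
  have := h𝔹.nontrivial₁₂
  exact finite_quotient_of_ne_bot (κ := κ) _ (by
    simpa using (g_ne_zero (𝔹 := 𝔹)))

theorem twistIncl_injective₂ {N : GluedModule 𝔹} (hN : N.IsLineBundle) :
    Injective (twistIncl N).φ₂ := by
  have := h𝔹.dom₂
  have := hN.inv₂
  have := h𝔹.nontrivial₁₂
  rw [injective_iff_map_eq_zero]
  intro x hx
  rcases smul_eq_zero_invertible (B := 𝔹.B₂) (b := 𝔹.g) (m := x) hx with h | h
  · exact absurd h g_ne_zero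
  · exact h

omit h𝔹 in
theorem finite_coker_twistIncl₁ (N : GluedModule 𝔹) :
    Module.Finite κ (N.N₁ ⧸ LinearMap.range (twistIncl N).φ₁) := by
  have : LinearMap.range (twistIncl N).φ₁ = ⊤ := LinearMap.range_id
  have : Subsingleton (N.N₁ ⧸ LinearMap.range (twistIncl N).φ₁) :=
    Submodule.Quotient.subsingleton_iff.mpr this
  infer_instance

omit h𝔹 in
theorem finrank_coker_twistIncl₁ (N : GluedModule 𝔹) :
    Module.finrank κ (N.N₁ ⧸ LinearMap.range (twistIncl N).φ₁) = 0 := by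
  have : LinearMap.range (twistIncl N).φ₁ = ⊤ := LinearMap.range_id
  have : Subsingleton (N.N₁ ⧸ LinearMap.range (twistIncl N).φ₁) :=
    Submodule.Quotient.subsingleton_iff.mpr this
  exact Module.finrank_zero_of_subsingleton

omit h𝔹 in
theorem finrank_coker_twistIncl₁₂ (N : GluedModule 𝔹) :
    Module.finrank κ (N.N₁₂ ⧸ LinearMap.range (twistIncl N).φ₁₂) = 0 := by
  have : LinearMap.range (twistIncl N).φ₁₂ = ⊤ := LinearMap.range_id
  have : Subsingleton (N.N₁₂ ⧸ LinearMap.range (twistIncl N).φ₁₂) :=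
    Submodule.Quotient.subsingleton_iff.mpr this
  exact Module.finrank_zero_of_subsingleton

theorem finite_coker_twistIncl₂ {N : GluedModule 𝔹} (hN : N.IsLineBundle) :
    Module.Finite κ (N.N₂ ⧸ LinearMap.range (twistIncl N).φ₂) := by
  have := hN.inv₂
  have := h𝔹.finite_quot_g
  have hfin : Module.Finite κ (N.N₂ ⧸ Ideal.span {𝔹.g} • (⊤ : Submodule 𝔹.B₂ N.N₂)) :=
    finite_quot_smul_top (κ := κ) _
  exact Module.Finite.equiv
    ((Submodule.quotEquivOfEq _ _ (range_twistIncl_φ₂ N).symm).restrictScalars κ)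

theorem finrank_coker_twistIncl₂ {N : GluedModule 𝔹} (hN : N.IsLineBundle) :
    Module.finrank κ (N.N₂ ⧸ LinearMap.range (twistIncl N).φ₂) = h𝔹.n₀ := by
  have := hN.inv₂
  have := h𝔹.finite_quot_g
  have h1 : Module.finrank κ (N.N₂ ⧸ Ideal.span {𝔹.g} • (⊤ : Submodule 𝔹.B₂ N.N₂)) =
      Module.finrank κ (𝔹.B₂ ⧸ Ideal.span {𝔹.g}) := finrank_quot_smul_top (κ := κ) _
  rw [n₀, ← h1]
  exact LinearEquiv.finrank_eq
    ((Submodule.quotEquivOfEq _ _ (range_twistIncl_φ₂ N)).restrictScalars κ)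

/-- `FinCoh` is invariant under twisting by one. -/
theorem finCoh_twist_one_iff {N : GluedModule 𝔹} (hN : N.IsLineBundle) :
    FinCoh (N.twist 1) ↔ FinCoh N := by
  have := finite_coker_twistIncl₁ N
  have := h𝔹.finite_coker_twistIncl₂ hN
  exact ⟨finCoh_of_injective_of_finite' (twistIncl N) injective_id (h𝔹.twistIncl_injective₂ hN),
    finCoh_of_injective_of_finite (twistIncl N) injective_id (h𝔹.twistIncl_injective₂ hN)⟩

/-- `χ(N⟨1⟩) = χ(N) + n₀`. -/
theorem gchi_twist_one {N : GluedModule 𝔹} (hN : N.IsLineBundle) (hf : FinCoh N) :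
    gchi (N.twist 1) = gchi N + (h𝔹.n₀ : ℤ) := by
  have := finite_coker_twistIncl₁ N
  have := h𝔹.finite_coker_twistIncl₂ hN
  have h1 := gchi_of_injective_of_finite (twistIncl N) injective_id
    (h𝔹.twistIncl_injective₂ hN) hf
  have h2 := gh0_of_finite (cokerG (twistIncl N))
  have e1 : Module.finrank κ (cokerG (twistIncl N)).N₁ = 0 := finrank_coker_twistIncl₁ N
  have e2 : Module.finrank κ (cokerG (twistIncl N)).N₂ = h𝔹.n₀ :=
    h𝔹.finrank_coker_twistIncl₂ (N := N) hN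
  have e3 : Module.finrank κ (cokerG (twistIncl N)).N₁₂ = 0 := finrank_coker_twistIncl₁₂ N
  rw [e1, e2, e3] at h2
  rw [h1, h2]
  simp

/-- `FinCoh` is invariant under all twists. -/
theorem finCoh_twist_iff {N : GluedModule 𝔹} (hN : N.IsLineBundle) (n : ℤ) :
    FinCoh (N.twist n) ↔ FinCoh N := by
  induction n using Int.induction_on with
  | zero => exact finCoh_congr_iff (GluedModule.twistZero N)
  | succ n ih =>
    rw [← ih, ← h𝔹.finCoh_twist_one_iff (GluedModule.twist_isLineBundle hN n)]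
    exact (finCoh_congr_iff (GluedModule.twistTwist N n 1)).symm
  | pred n ih =>
    rw [← ih, ← h𝔹.finCoh_twist_one_iff (GluedModule.twist_isLineBundle hN (-(n : ℤ) - 1))]
    have e := GluedModule.twistTwist N (-(n : ℤ) - 1) 1
    rw [sub_add_cancel] at e
    exact finCoh_congr_iff e

/-- `χ(N⟨n⟩) = χ(N) + n · n₀`. -/
theorem gchi_twist {N : GluedModule 𝔹} (hN : N.IsLineBundle) (hf : FinCoh N) (n : ℤ) :
    gchi (N.twist n) = gchi N + n * (h𝔹.n₀ : ℤ) := by
  induction n using Int.induction_on with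
  | zero => rw [gchi_congr (GluedModule.twistZero N)]; simp
  | succ n ih =>
    rw [← gchi_congr (GluedModule.twistTwist N n 1),
      h𝔹.gchi_twist_one (GluedModule.twist_isLineBundle hN n)
        ((h𝔹.finCoh_twist_iff hN n).mpr hf), ih]
    ring
  | pred n ih =>
    have e := GluedModule.twistTwist N (-(n : ℤ) - 1) 1
    rw [sub_add_cancel] at e
    have h1 := h𝔹.gchi_twist_one (GluedModule.twist_isLineBundle hN (-(n : ℤ) - 1))
      ((h𝔹.finCoh_twist_iff hN _).mpr hf)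
    rw [gchi_congr e, ih] at h1
    linarith

/-- Some twist of a line bundle has a nonzero section. -/
theorem exists_twist_section {N : GluedModule 𝔹} (hN : N.IsLineBundle) :
    ∃ (m : ℕ) (s : (N.twist (m : ℤ)).H0), s ≠ 0 := by
  have := h𝔹.dom₁
  have := hN.inv₁
  have hnt : Nontrivial N.N₁ := by
    by_contra hcon
    rw [not_nontrivial_iff_subsingleton] at hcon
    have h1 : (1 : 𝔹.B₁) • (0 : N.N₁) = (0 : 𝔹.B₁) • (0 : N.N₁) := by simp
    have hfaith : FaithfulSMul 𝔹.B₁ N.N₁ := inferInstance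
    exact one_ne_zero (hfaith.eq_of_smul_eq_smul (fun a => Subsingleton.elim _ _))
  obtain ⟨a, ha⟩ := exists_ne (0 : N.N₁)
  obtain ⟨b, m, hb⟩ := N.surj₂ (N.ι₁ a)
  refine ⟨m, ⟨(a, b), ?_⟩, ?_⟩
  · rw [GluedModule.mem_H0]
    change N.ι₁ a = ((𝔹.u ^ (m : ℤ) : 𝔹.B₁₂ˣ) : 𝔹.B₁₂) • N.ι₂ b
    rw [hb, zpow_natCast, Units.val_pow_eq_pow_val, TwoChart.u_val]
  · intro h
    apply ha
    have := congrArg (fun z : (N.twist (m : ℤ)).H0 => (z : N.N₁ × N.N₂).1) h
    exact this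

/-- Every line bundle on a curve chart has finite-dimensional cohomology. -/
theorem finCoh_of_isLineBundle {N : GluedModule 𝔹} (hN : N.IsLineBundle) : FinCoh N := by
  obtain ⟨m, s, hs⟩ := h𝔹.exists_twist_section hN
  exact (h𝔹.finCoh_twist_iff hN m).mp
    (h𝔹.finCoh_of_section (GluedModule.twist_isLineBundle hN m) hs)

/-- The degree of a line bundle: `χ(N) - χ(O)`. -/
noncomputable def deg (_h𝔹 : IsCurveChart 𝔹) (N : GluedModule 𝔹) : ℤ :=
  gchi N - gchi (GluedModule.unit 𝔹)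

theorem deg_unit : h𝔹.deg (GluedModule.unit 𝔹) = 0 := sub_self _

theorem deg_congr {N N' : GluedModule 𝔹} (e : GluedModule.Iso N N') :
    h𝔹.deg N = h𝔹.deg N' := by
  unfold deg
  rw [gchi_congr e]

theorem deg_twist {N : GluedModule 𝔹} (hN : N.IsLineBundle) (n : ℤ) :
    h𝔹.deg (N.twist n) = h𝔹.deg N + n * (h𝔹.n₀ : ℤ) := by
  unfold deg
  rw [h𝔹.gchi_twist hN (h𝔹.finCoh_of_isLineBundle hN) n]
  ring

/-- A line bundle with a nonzero section has nonnegative degree. -/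
theorem deg_nonneg_of_section {N : GluedModule 𝔹} (hN : N.IsLineBundle) {s : N.H0}
    (hs : s ≠ 0) : 0 ≤ h𝔹.deg N := by
  unfold deg
  have := h𝔹.gchi_unit_le_of_section hN hs
  linarith

/-- A line bundle of negative degree has no nonzero sections. -/
theorem H0_eq_bot_of_deg_neg {N : GluedModule 𝔹} (hN : N.IsLineBundle)
    (hd : h𝔹.deg N < 0) : N.H0 = ⊥ := by
  rw [Submodule.eq_bot_iff]
  intro x hx
  by_contra hne
  have hs : (⟨x, hx⟩ : N.H0) ≠ 0 := fun h => hne (congrArg Subtype.val h)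
  have := h𝔹.deg_nonneg_of_section hN hs
  linarith

theorem gh0_eq_zero_of_deg_neg {N : GluedModule 𝔹} (hN : N.IsLineBundle)
    (hd : h𝔹.deg N < 0) : gh0 N = 0 := by
  rw [gh0_eq, h𝔹.H0_eq_bot_of_deg_neg hN hd]
  exact finrank_bot κ _

/-- A line bundle of degree zero with a nonzero section is trivial. -/
theorem isIso_unit_of_section_of_deg_eq_zero {N : GluedModule 𝔹} (hN : N.IsLineBundle)
    {s : N.H0} (hs : s ≠ 0) (hd : h𝔹.deg N = 0) :
    GluedModule.IsIso (GluedModule.unit 𝔹) N :=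
  h𝔹.isIso_unit_of_section_of_gchi_eq hN hs (by unfold deg at hd; linarith)

/-- The genus `g = dim H¹(O)`. -/
noncomputable def genus (_h𝔹 : IsCurveChart 𝔹) : ℕ := gh1 (GluedModule.unit 𝔹)

theorem gchi_unit : gchi (GluedModule.unit 𝔹) = 1 - (h𝔹.genus : ℤ) := by
  rw [gchi_eq, h𝔹.gh0_unit]
  rfl

/-- Riemann–Roch bookkeeping: `h⁰(N) - h¹(N) = deg N + 1 - g`. -/
theorem gh0_sub_gh1 (N : GluedModule 𝔹) :
    (gh0 N : ℤ) - (gh1 N : ℤ) = h𝔹.deg N + 1 - (h𝔹.genus : ℤ) := by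
  unfold deg
  rw [h𝔹.gchi_unit, gchi_eq]
  ring

end IsCurveChart

end Curve

end Fermat.Agent.S25.CONN.Count.H1451
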